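import Mathlib
import Fermat.Prelude.Def_GaloisRep_LocalConditions
import Fermat.Agent.MUL.S31.General
import Fermat.Agent.MUL.Lib.IgusaDeg.JInput

section MergeWrap_S34_Transfer -- from S34/Transfer.lean

/-!
# Transfer of integral characteristic polynomials from points of the Hecke algebra
(owner: helper62)

Let `H` be a Hecke-Galois datum over `T` and let `P i` be finitely many points of the Hecke
algebra carrying Galois representations with the Frobenius characteristic polynomials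
`X² - χ i (T_ℓ) X + ℓ`, separating the Hecke algebra uniformly for the `p`-adic topology.
If `s ∈ G_ℚ` has characteristic polynomial `X² - a X + d` (`a, d ∈ ℤ`) in all the `P i`, then it
has the same characteristic polynomial in `H.ρ` (`charpoly_eq_of_repPoints`).

Application: `IsUnipotentOnInertiaAt` for `H.ρ` from the points
(`isUnipotentOnInertiaAt_of_repPoints`).
-/

namespace Fermat.Agent.S34

open Polynomial Matrix Module Fermat.Agent.F3 Fermat.Agent.TraceRigidity Fermat.Agent.S31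

section Algebra

variable {A : Type*} [CommRing A]

/-- If two endomorphisms of a free module of finite rank are congruent modulo `I`, so are their
determinants. -/
lemma det_sub_mem_of_forall_sub_mem {V : Type*} [AddCommGroup V] [Module A V]
    [Module.Free A V] [Module.Finite A V] (I : Ideal A) (f g : Module.End A V)
    (h : ∀ v, f v - g v ∈ I • (⊤ : Submodule A V)) :
    LinearMap.det f - LinearMap.det g ∈ I := by
  classical
  set b := Module.Free.chooseBasis A V with hb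
  rw [← LinearMap.det_toMatrix b f, ← LinearMap.det_toMatrix b g,
    ← Ideal.Quotient.eq_zero_iff_mem, map_sub, sub_eq_zero, RingHom.map_det, RingHom.map_det]
  congr 1
  ext i j
  rw [RingHom.mapMatrix_apply, RingHom.mapMatrix_apply, Matrix.map_apply, Matrix.map_apply,
    ← sub_eq_zero, ← map_sub, Ideal.Quotient.eq_zero_iff_mem, LinearMap.toMatrix_apply,
    LinearMap.toMatrix_apply, ← Finsupp.sub_apply, ← map_sub]
  exact repr_mem_of_mem_smul_top b I (h (b j)) i

/-- trace and determinant from a characteristic polynomial of degree two -/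
lemma trace_det_of_charpoly_eq [Nontrivial A] {V : Type*} [AddCommGroup V] [Module A V]
    [Module.Free A V] [Module.Finite A V] (hV : Module.finrank A V = 2)
    (f : Module.End A V) (a d : A) (hf : f.charpoly = X ^ 2 - C a * X + C d) :
    LinearMap.trace A V f = a ∧ LinearMap.det f = d := by
  classical
  set b : Basis (Fin 2) A V := Module.finBasisOfFinrankEq A V hV
  have h1 : (LinearMap.toMatrix b b f).charpoly = X ^ 2 - C a * X + C d := by
    rw [LinearMap.charpoly_toMatrix, hf]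
  rw [Matrix.charpoly_fin_two] at h1
  have h2 := congrArg (fun P : A[X] => P.coeff 1) h1
  have h3 := congrArg (fun P : A[X] => P.coeff 0) h1
  simp only [coeff_add, coeff_sub, coeff_X_pow, coeff_C_mul, coeff_X_one,
    coeff_X_zero, mul_one, mul_zero, sub_zero, zero_add, OfNat.zero_ne_ofNat,
    OfNat.one_ne_ofNat, if_false, zero_sub, neg_inj, coeff_C, one_ne_zero, add_zero] at h2 h3
  refine ⟨?_, ?_⟩
  · rw [LinearMap.trace_eq_matrix_trace A b]; exact h2
  · rw [← LinearMap.det_toMatrix b]; exact h3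

/-- the characteristic polynomial of an endomorphism of a free module of rank two -/
lemma charpoly_eq_of_trace_det [Nontrivial A] {V : Type*} [AddCommGroup V] [Module A V]
    [Module.Free A V] [Module.Finite A V] (hV : Module.finrank A V = 2)
    (f : Module.End A V) :
    f.charpoly = X ^ 2 - C (LinearMap.trace A V f) * X + C (LinearMap.det f) := by
  classical
  set b : Basis (Fin 2) A V := Module.finBasisOfFinrankEq A V hV
  rw [← LinearMap.charpoly_toMatrix f b, Matrix.charpoly_fin_two,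
    LinearMap.trace_eq_matrix_trace A b, LinearMap.det_toMatrix b]

end Algebra

section Galois

variable {T : Type} [CommRing T] [IsLocalRing T]

/-- Congruence of the determinants of `ρ s` and `ρ t` modulo `𝔪 ^ n` when `s` and `t` agree on
the level-`n` field. -/
lemma det_sub_mem_of_agree (ρ : GaloisRepAdic T) (n : ℕ)
    (L : IntermediateField ℚ (AlgebraicClosure ℚ))
    (hL : ∀ σ : GQ, (∀ x ∈ L, σ x = x) →
      ∀ v : ρ.V, ρ.ρ σ v - v ∈ (IsLocalRing.maximalIdeal T ^ n) • (⊤ : Submodule T ρ.V))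
    (s t : GQ) (hst : ∀ x ∈ L, t x = s x) :
    LinearMap.det (ρ.ρ t) - LinearMap.det (ρ.ρ s) ∈ IsLocalRing.maximalIdeal T ^ n := by
  apply det_sub_mem_of_forall_sub_mem
  intro v
  have h1 : ∀ x ∈ L, (s⁻¹ * t) x = x := by
    intro x hx
    rw [AlgEquiv.mul_apply, hst x hx]
    exact s.symm_apply_apply x
  have h2 := hL (s⁻¹ * t) h1 v
  have h3 : ρ.ρ t v - ρ.ρ s v = ρ.ρ s (ρ.ρ (s⁻¹ * t) v - v) := by
    rw [map_sub, ← Module.End.mul_apply, ← map_mul, mul_inv_cancel_left]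
  rw [h3]
  exact map_mem_smul_top _ _ h2

end Galois

variable {p : ℕ} {N : ℕ} [NeZero N] {S : Finset ℕ}

/-- A point of the Hecke algebra carrying a Galois representation with the right Frobenius
characteristic polynomials. -/
structure HeckeRepPoint (N : ℕ) [NeZero N] (S : Finset ℕ) : Type 1 where
  /-- the coefficient ring -/
  O : Type
  [instCommRing : CommRing O]
  [instIsLocalRing : IsLocalRing O]
  [instNoeth : IsNoetherianRing O]
  /-- the eigen-system -/
  χ : CuspForm.heckeAlgebra N 2 (↑S : Set ℕ) →+* O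
  /-- the representation -/
  ρ : GaloisRepAdic O
  charpoly_frob : ∀ (ℓ : ℕ) (hℓ : ℓ.Prime) (hℓN : ¬ ℓ ∣ N) (hℓS : ℓ ∉ (↑S : Set ℕ)),
    ∀ A : ValuationSubring (AlgebraicClosure ℚ), A.LiesOverPrime ℓ →
      ∀ σ : GQ, A.IsFrobeniusAt σ ℓ →
        LinearMap.charpoly (ρ.ρ σ) =
          X ^ 2 - C (χ (CuspForm.heckeAlgebra.T hℓ hℓN hℓS)) * X + C ((ℓ : O))

attribute [instance] HeckeRepPoint.instCommRing HeckeRepPoint.instIsLocalRing
  HeckeRepPoint.instNoeth

/-- The family `P` separates the Hecke algebra uniformly for the `p`-adic topology. -/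
def IsSeparating (p : ℕ) {N : ℕ} [NeZero N] {S : Finset ℕ} {d : ℕ}
    (P : Fin d → HeckeRepPoint N S) : Prop :=
  ∀ r : ℕ, ∃ m : ℕ, ∀ X : CuspForm.heckeAlgebra N 2 (↑S : Set ℕ),
    (∀ i, (P i).χ X ∈ IsLocalRing.maximalIdeal (P i).O ^ m) →
      ∃ Y : CuspForm.heckeAlgebra N 2 (↑S : Set ℕ), X = (p : CuspForm.heckeAlgebra N 2 _) ^ r * Y

variable {𝒪 : Type} [CommRing 𝒪] [IsDomain 𝒪] [IsDiscreteValuationRing 𝒪]
  [IsAdicComplete (IsLocalRing.maximalIdeal 𝒪) 𝒪]
  {θ : CuspForm.heckeAlgebra N 2 (↑S : Set ℕ) →+* IsLocalRing.ResidueField 𝒪}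
  {T : Type} [CommRing T] [IsLocalRing T] [IsNoetherianRing T]
  [IsAdicComplete (IsLocalRing.maximalIdeal T) T] [Algebra 𝒪 T] [IsLocalHom (algebraMap 𝒪 T)]
  [Module.Finite 𝒪 T] [Module.Free 𝒪 T]

/-- **Transfer of an integral characteristic polynomial** from separating points of the Hecke
algebra to a Hecke-Galois datum. -/
theorem charpoly_eq_of_repPoints (hdens : FrobDensityLite)
    (hp𝒪 : (p : 𝒪) ∈ IsLocalRing.maximalIdeal 𝒪)
    (hNS : ∀ q : ℕ, q.Prime → q ∣ N → q ∈ S)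
    (H : CuspForm.HeckeGaloisRepDatum N (↑S : Set ℕ) 𝒪 θ T)
    {d : ℕ} (P : Fin d → HeckeRepPoint N S) (hP : IsSeparating p P)
    (s : GQ) (a c : ℤ)
    (hs : ∀ i, LinearMap.charpoly ((P i).ρ.ρ s) =
      X ^ 2 - C ((a : ℤ) : (P i).O) * X + C ((c : ℤ) : (P i).O)) :
    LinearMap.charpoly (H.ρ.ρ s) = X ^ 2 - C ((a : ℤ) : T) * X + C ((c : ℤ) : T) := by
  classical
  have hpT : (p : T) ∈ IsLocalRing.maximalIdeal T := by
    have h1 : (p : T) = algebraMap 𝒪 T (p : 𝒪) := by simp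
    rw [h1, IsLocalRing.mem_maximalIdeal, mem_nonunits_iff]
    intro hu
    exact (IsLocalRing.mem_maximalIdeal _).1 hp𝒪 (isUnit_of_map_unit (algebraMap 𝒪 T) _ hu)
  have hbot : ⨅ n : ℕ, IsLocalRing.maximalIdeal T ^ n = ⊥ :=
    Ideal.iInf_pow_eq_bot_of_isLocalRing _ (Ideal.IsMaximal.ne_top inferInstance)
  have key : ∀ n : ℕ,
      LinearMap.trace T H.ρ.V (H.ρ.ρ s) - (a : T) ∈ IsLocalRing.maximalIdeal T ^ n ∧
      LinearMap.det (H.ρ.ρ s) - (c : T) ∈ IsLocalRing.maximalIdeal T ^ n := by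
    intro n
    obtain ⟨m, hm⟩ := hP n
    obtain ⟨L₀, hL₀fd, hL₀n, hL₀⟩ := exists_normal_level H.ρ n
    choose Ls hLsfd hLsn hLs using fun i => exists_normal_level (P i).ρ m
    obtain ⟨L, hLfd, hLn, hL₀L, hLsL⟩ := exists_normal_sup d Ls hLsfd hLsn L₀ hL₀fd hL₀n
    obtain ⟨ℓ, A, τ, j, hℓ, hℓS, hA, hτ, hτs⟩ := exists_frob_pow hdens L hLfd hLn s S
    have hℓN : ¬ ℓ ∣ N := fun h => hℓS (hNS ℓ hℓ h)
    have hℓS' : ℓ ∉ (↑S : Set ℕ) := fun h => hℓS (Finset.mem_coe.1 h)
    -- the two elements of the Hecke algebra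
    set Xt : CuspForm.heckeAlgebra N 2 (↑S : Set ℕ) :=
      trPow (CuspForm.heckeAlgebra.T hℓ hℓN hℓS') (ℓ : CuspForm.heckeAlgebra N 2 _) j -
        ((a : ℤ) : CuspForm.heckeAlgebra N 2 _) with hXt
    set Xd : CuspForm.heckeAlgebra N 2 (↑S : Set ℕ) :=
      (ℓ : CuspForm.heckeAlgebra N 2 _) ^ j - ((c : ℤ) : CuspForm.heckeAlgebra N 2 _) with hXd
    have himage : ∀ {B : Type} [CommRing B] [IsLocalRing B]
        (φ : CuspForm.heckeAlgebra N 2 (↑S : Set ℕ) →+* B) (ρ : GaloisRepAdic B),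
        (∀ (ℓ : ℕ) (hℓ : ℓ.Prime) (hℓN : ¬ ℓ ∣ N) (hℓS : ℓ ∉ (↑S : Set ℕ)),
          ∀ A' : ValuationSubring (AlgebraicClosure ℚ), A'.LiesOverPrime ℓ →
            ∀ σ : GQ, A'.IsFrobeniusAt σ ℓ →
              LinearMap.charpoly (ρ.ρ σ) =
                X ^ 2 - C (φ (CuspForm.heckeAlgebra.T hℓ hℓN hℓS)) * X + C ((ℓ : B))) →
        φ Xt = LinearMap.trace B ρ.V (ρ.ρ (τ ^ j)) - (a : B) ∧
        φ Xd = LinearMap.det (ρ.ρ (τ ^ j)) - (c : B) := by
      intro B _ _ φ ρ hρ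
      have h0 := hρ ℓ hℓ hℓN hℓS' A hA τ hτ
      refine ⟨?_, ?_⟩
      · rw [hXt, map_sub, map_trPow, map_natCast, map_intCast, map_pow ρ.ρ,
          trace_pow_eq_trPow ρ.finrank_eq _ _ _ h0]
      · rw [hXd, map_sub, map_pow, map_natCast, map_intCast, map_pow ρ.ρ, map_pow,
          (trace_det_of_charpoly_eq ρ.finrank_eq _ _ _ h0).2]
    have hXi : ∀ i, (P i).χ Xt ∈ IsLocalRing.maximalIdeal (P i).O ^ m ∧
        (P i).χ Xd ∈ IsLocalRing.maximalIdeal (P i).O ^ m := by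
      intro i
      obtain ⟨e1, e2⟩ := himage (P i).χ (P i).ρ (P i).charpoly_frob
      obtain ⟨t1, t2⟩ := trace_det_of_charpoly_eq (P i).ρ.finrank_eq _ _ _ (hs i)
      rw [e1, e2, ← t1, ← t2]
      exact ⟨trace_sub_mem_of_agree (P i).ρ m L
          (fun σ' hσ' => hLs i σ' fun x hx => hσ' x (hLsL i hx)) s (τ ^ j) hτs,
        det_sub_mem_of_agree (P i).ρ m L
          (fun σ' hσ' => hLs i σ' fun x hx => hσ' x (hLsL i hx)) s (τ ^ j) hτs⟩
    obtain ⟨Yt, hYt⟩ := hm Xt fun i => (hXi i).1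
    obtain ⟨Yd, hYd⟩ := hm Xd fun i => (hXi i).2
    have hπt : H.π Xt ∈ IsLocalRing.maximalIdeal T ^ n := by
      rw [hYt, map_mul, map_pow, map_natCast]
      exact Ideal.mul_mem_right _ _ (Ideal.pow_mem_pow hpT n)
    have hπd : H.π Xd ∈ IsLocalRing.maximalIdeal T ^ n := by
      rw [hYd, map_mul, map_pow, map_natCast]
      exact Ideal.mul_mem_right _ _ (Ideal.pow_mem_pow hpT n)
    obtain ⟨e1, e2⟩ := himage H.π H.ρ H.charpoly_frob
    rw [e1] at hπt
    rw [e2] at hπd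
    have h1 := trace_sub_mem_of_agree H.ρ n L
      (fun σ' hσ' => hL₀ σ' fun x hx => hσ' x (hL₀L hx)) s (τ ^ j) hτs
    have h2 := det_sub_mem_of_agree H.ρ n L
      (fun σ' hσ' => hL₀ σ' fun x hx => hσ' x (hL₀L hx)) s (τ ^ j) hτs
    refine ⟨?_, ?_⟩
    · have h4 : LinearMap.trace T H.ρ.V (H.ρ.ρ s) - (a : T) =
          (LinearMap.trace T H.ρ.V (H.ρ.ρ (τ ^ j)) - (a : T)) -
          (LinearMap.trace T H.ρ.V (H.ρ.ρ (τ ^ j)) - LinearMap.trace T H.ρ.V (H.ρ.ρ s)) := by
        ring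
      rw [h4]
      exact Ideal.sub_mem _ hπt h1
    · have h4 : LinearMap.det (H.ρ.ρ s) - (c : T) =
          (LinearMap.det (H.ρ.ρ (τ ^ j)) - (c : T)) -
          (LinearMap.det (H.ρ.ρ (τ ^ j)) - LinearMap.det (H.ρ.ρ s)) := by
        ring
      rw [h4]
      exact Ideal.sub_mem _ hπd h2
  have htr : LinearMap.trace T H.ρ.V (H.ρ.ρ s) = (a : T) := by
    rw [← sub_eq_zero, ← Ideal.mem_bot, ← hbot, Ideal.mem_iInf]
    exact fun n => (key n).1
  have hdet : LinearMap.det (H.ρ.ρ s) = (c : T) := by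
    rw [← sub_eq_zero, ← Ideal.mem_bot, ← hbot, Ideal.mem_iInf]
    exact fun n => (key n).2
  rw [charpoly_eq_of_trace_det H.ρ.finrank_eq, htr, hdet]

/-- **Unipotent inertia from the points.** -/
theorem isUnipotentOnInertiaAt_of_repPoints (hdens : FrobDensityLite)
    (hp𝒪 : (p : 𝒪) ∈ IsLocalRing.maximalIdeal 𝒪)
    (hNS : ∀ q : ℕ, q.Prime → q ∣ N → q ∈ S)
    (H : CuspForm.HeckeGaloisRepDatum N (↑S : Set ℕ) 𝒪 θ T)
    {d : ℕ} (P : Fin d → HeckeRepPoint N S) (hP : IsSeparating p P)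
    (q : ℕ) (hq : ∀ i, (P i).ρ.IsUnipotentOnInertiaAt q) :
    H.ρ.IsUnipotentOnInertiaAt q := by
  intro P₀ hP₀ σ hσ
  have h1 := charpoly_eq_of_repPoints hdens hp𝒪 hNS H P hP σ 2 1 (fun i => by
    rw [hq i P₀ hP₀ σ hσ]
    simp only [Int.cast_ofNat, Int.cast_one, map_one]
    have : (C (2 : (P i).O) : (P i).O[X]) = 2 := map_ofNat C 2
    rw [this]
    ring)
  rw [h1]
  simp only [Int.cast_ofNat, Int.cast_one, map_one]
  have : (C (2 : T) : T[X]) = 2 := map_ofNat C 2
  rw [this]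
  ring

end Fermat.Agent.S34
end MergeWrap_S34_Transfer
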